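import Mathlib.Algebra.Polynomial.Identities
import Mathlib.Analysis.PSeries
import Mathlib.Analysis.SpecialFunctions.Pow.Real
import Mathlib.Data.Nat.ChineseRemainder
import Mathlib.Algebra.Field.ZMod
import Mathlib.RingTheory.Polynomial.Basic
import Mathlib.RingTheory.Int.Basic
import Mathlib.RingTheory.Localization.Integral
import Mathlib.FieldTheory.Separable

/-!
# The local densities of squarefree values of a polynomial

For `f ∈ ℤ[X]` and a prime `p` the number `rootCount f p` of roots modulo `p²` is bounded when `f`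
is separable, and the integers `n` with no `p² ∣ f n`, `p < z`, have density
`∏_{p < z} (1 - rootCount f p / p²)`.
-/

set_option autoImplicit false

noncomputable section

open Polynomial

namespace FA.SquarefreeValues

/-- The number of roots of `f` modulo `p²`. -/
def rootCount (f : ℤ[X]) (p : ℕ) : ℕ :=
  ((Finset.range (p ^ 2)).filter fun r : ℕ => ((p : ℤ) ^ 2) ∣ f.eval (r : ℤ)).card

/-- The factor `1 - rootCount f p / p²` at a prime `p`, and `1` elsewhere. -/
def localFactor (f : ℤ[X]) (p : ℕ) : ℝ :=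
  if p.Prime then 1 - (rootCount f p : ℝ) / (p : ℝ) ^ 2 else 1

/-- The product of the local factors below `z`. -/
def partialDensity (f : ℤ[X]) (z : ℕ) : ℝ := ∏ p ∈ Finset.range z, localFactor f p

/-- The expected density `∏ (1 - rootCount f p / p²)` of squarefree values. -/
def sfDensity (f : ℤ[X]) : ℝ := ⨅ z, partialDensity f z

theorem rootCount_le_sq (f : ℤ[X]) (p : ℕ) : rootCount f p ≤ p ^ 2 :=
  (Finset.card_filter_le _ _).trans (Finset.card_range _).le

theorem rootCount_eq_sq_iff (f : ℤ[X]) {p : ℕ} (hp : 0 < p) :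
    rootCount f p = p ^ 2 ↔ ∀ n : ℕ, ((p : ℤ) ^ 2) ∣ f.eval (n : ℤ) := by
  constructor
  · intro h n
    have h' : (Finset.range (p ^ 2)).filter (fun r : ℕ => ((p : ℤ) ^ 2) ∣ f.eval (r : ℤ)) =
        Finset.range (p ^ 2) := Finset.eq_of_subset_of_card_le (Finset.filter_subset _ _)
      (by rw [Finset.card_range]; exact h.ge)
    have hr := Finset.filter_eq_self.1 h' (n % p ^ 2)
      (Finset.mem_range.2 (Nat.mod_lt _ (by positivity)))
    have hd : ((p : ℤ) ^ 2) ∣ (n : ℤ) - ((n % p ^ 2 : ℕ) : ℤ) := by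
      rw [← Nat.cast_pow]
      exact Nat.modEq_iff_dvd.1 (Nat.mod_modEq n _)
    exact (dvd_iff_dvd_of_dvd_sub (hd.trans (sub_dvd_eval_sub _ _ f))).2 hr
  · intro h
    rw [rootCount, Finset.filter_true_of_mem fun r _ => h r, Finset.card_range]

theorem localFactor_mem (f : ℤ[X]) (p : ℕ) : 0 ≤ localFactor f p ∧ localFactor f p ≤ 1 := by
  rw [localFactor]
  split_ifs with hp
  · have h : (rootCount f p : ℝ) ≤ (p : ℝ) ^ 2 := by exact_mod_cast rootCount_le_sq f p
    have hp0 : (0 : ℝ) < p := by exact_mod_cast hp.pos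
    refine ⟨?_, sub_le_self _ (by positivity)⟩
    rw [sub_nonneg, div_le_one (by positivity)]
    exact h
  · simp

theorem partialDensity_nonneg (f : ℤ[X]) (z : ℕ) : 0 ≤ partialDensity f z :=
  Finset.prod_nonneg fun p _ => (localFactor_mem f p).1

theorem partialDensity_antitone (f : ℤ[X]) : Antitone (partialDensity f) :=
  antitone_nat_of_succ_le fun z => by
    rw [partialDensity, Finset.prod_range_succ]
    exact mul_le_of_le_one_right (partialDensity_nonneg f z) (localFactor_mem f z).2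

theorem bddBelow_partialDensity (f : ℤ[X]) : BddBelow (Set.range (partialDensity f)) :=
  ⟨0, by rintro x ⟨z, rfl⟩; exact partialDensity_nonneg f z⟩

theorem tendsto_partialDensity (f : ℤ[X]) :
    Filter.Tendsto (partialDensity f) Filter.atTop (nhds (sfDensity f)) :=
  tendsto_atTop_ciInf (partialDensity_antitone f) (bddBelow_partialDensity f)

/-! ### The roots modulo `p²` are few -/

/-- For `f` separable over `ℚ` the greatest common divisor of `f` and `f'` contains a non-zero
integer. -/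
theorem exists_bezout {f : ℤ[X]} (hsep : (f.map (Int.castRingHom ℚ)).Separable) :
    ∃ (D : ℤ) (u v : ℤ[X]), D ≠ 0 ∧ u * f + v * derivative f = C D := by
  obtain ⟨a, b, hab⟩ := (separable_def' _).1 hsep
  obtain ⟨u, hu0, hu⟩ := IsLocalization.integerNormalization_spec (nonZeroDivisors ℤ) a
  obtain ⟨v, hv0, hv⟩ := IsLocalization.integerNormalization_spec (nonZeroDivisors ℤ) b
  refine ⟨u * v, C v * IsLocalization.integerNormalization (nonZeroDivisors ℤ) a,
    C u * IsLocalization.integerNormalization (nonZeroDivisors ℤ) b,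
    mul_ne_zero (nonZeroDivisors.ne_zero hu0) (nonZeroDivisors.ne_zero hv0),
    map_injective (Int.castRingHom ℚ) Int.cast_injective ?_⟩
  rw [algebraMap_int_eq, zsmul_eq_mul, ← C_eq_intCast] at hu hv
  simp only [Polynomial.map_add, Polynomial.map_mul, map_C, Int.coe_castRingHom, hu, hv,
    ← derivative_map, C_mul]
  linear_combination (C (u : ℚ) * C (v : ℚ)) * hab

/-- Roots modulo `p²` are at most `deg f` when `p` does not divide the discriminant. -/
theorem rootCount_le_natDegree {f u v : ℤ[X]} {D : ℤ} (h : u * f + v * derivative f = C D)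
    {p : ℕ} (hp : p.Prime) (hD : ¬(p : ℤ) ∣ D) : rootCount f p ≤ f.natDegree := by
  have := Fact.mk hp
  set g := f.map (Int.castRingHom (ZMod p)) with hg
  have hev : ∀ r : ℤ, g.eval (r : ZMod p) = ((f.eval r : ℤ) : ZMod p) := fun r => by
    rw [hg, ← eq_intCast (Int.castRingHom (ZMod p)) r, eval_map_apply, eq_intCast]
  have hg0 : g ≠ 0 := fun h0 => by
    have e : ((C D).map (Int.castRingHom (ZMod p))) = 0 := by
      rw [← h, Polynomial.map_add, Polynomial.map_mul, Polynomial.map_mul, ← derivative_map,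
        ← hg, h0, derivative_zero, mul_zero, mul_zero, add_zero]
    rw [map_C, C_eq_zero, eq_intCast] at e
    exact hD ((ZMod.intCast_zmod_eq_zero_iff_dvd D p).1 e)
  refine le_trans ?_ ((card_roots' g).trans natDegree_map_le)
  refine le_trans ?_ (Multiset.toFinset_card_le _)
  refine Finset.card_le_card_of_injOn (fun r : ℕ => (r : ZMod p)) (fun r hr => ?_)
    (fun r hr s hs hrs => ?_)
  · have hr' := (Finset.mem_filter.1 hr).2
    show (r : ZMod p) ∈ _
    rw [Finset.mem_coe, Multiset.mem_toFinset, mem_roots hg0, IsRoot.def, ← Int.cast_natCast,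
      hev, ZMod.intCast_zmod_eq_zero_iff_dvd]
    exact (dvd_pow_self _ two_ne_zero).trans hr'
  · obtain ⟨hr1, hr2⟩ := Finset.mem_filter.1 hr
    obtain ⟨hs1, hs2⟩ := Finset.mem_filter.1 hs
    have hmod : (p : ℤ) ∣ (s : ℤ) - r :=
      Nat.modEq_iff_dvd.1 ((ZMod.natCast_eq_natCast_iff r s p).1 hrs)
    obtain ⟨k, hk⟩ := binomExpansion f (r : ℤ) ((s : ℤ) - r)
    rw [add_sub_cancel] at hk
    have hd : ((p : ℤ) ^ 2) ∣ (derivative f).eval (r : ℤ) * ((s : ℤ) - r) := by
      have e : (derivative f).eval (r : ℤ) * ((s : ℤ) - r) =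
          f.eval (s : ℤ) - f.eval (r : ℤ) - k * ((s : ℤ) - r) ^ 2 := by linarith
      rw [e]
      exact (hs2.sub hr2).sub ((pow_dvd_pow_of_dvd hmod 2).mul_left k)
    have hpd : ¬(p : ℤ) ∣ (derivative f).eval (r : ℤ) := fun hd' => hD <| by
      have e := congrArg (eval (r : ℤ)) h
      rw [eval_add, eval_mul, eval_mul, eval_C] at e
      rw [← e]
      exact (((dvd_pow_self _ two_ne_zero).trans hr2).mul_left _).add (hd'.mul_left _)
    have hp2 : ((p ^ 2 : ℕ) : ℤ) ∣ (s : ℤ) - r := by
      rw [Nat.cast_pow]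
      exact ((Nat.prime_iff_prime_int.1 hp).coprime_iff_not_dvd.2 hpd).pow_left.dvd_of_dvd_mul_left
        hd
    have := Nat.modEq_iff_dvd.2 hp2
    exact Nat.ModEq.eq_of_lt_of_lt this (Finset.mem_range.1 hr1) (Finset.mem_range.1 hs1)

/-- A uniform bound for the roots modulo `p²`. -/
theorem exists_rootCount_bound {f : ℤ[X]} (hsep : (f.map (Int.castRingHom ℚ)).Separable) :
    ∃ R : ℕ, ∀ p : ℕ, p.Prime → rootCount f p ≤ R := by
  obtain ⟨D, u, v, hD, h⟩ := exists_bezout hsep
  refine ⟨max f.natDegree (D.natAbs ^ 2), fun p hp => ?_⟩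
  by_cases hd : (p : ℤ) ∣ D
  · exact le_max_of_le_right ((rootCount_le_sq f p).trans (Nat.pow_le_pow_left
      (Nat.le_of_dvd (Int.natAbs_pos.2 hD) (Int.natCast_dvd.1 hd)) 2))
  · exact le_max_of_le_left (rootCount_le_natDegree h hp hd)

/-- A tail of the Euler product is close to `1`. -/
theorem tail_product_ge {f : ℤ[X]} {R : ℕ} (hR : ∀ p : ℕ, p.Prime → rootCount f p ≤ R)
    (k z : ℕ) :
    1 - (R : ℝ) * (2 / (k + 1)) ≤ ∏ p ∈ Finset.Ico (k + 1) z, localFactor f p := by
  have key : ∀ s : Finset ℕ, 1 - ∑ p ∈ s, (1 - localFactor f p) ≤ ∏ p ∈ s, localFactor f p := by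
    intro s
    induction s using Finset.induction_on with
    | empty => simp
    | insert a s ha ih =>
      rw [Finset.sum_insert ha, Finset.prod_insert ha]
      have h1 := localFactor_mem f a
      have h2 : ∏ p ∈ s, localFactor f p ≤ 1 :=
        Finset.prod_le_one (fun p _ => (localFactor_mem f p).1) fun p _ => (localFactor_mem f p).2
      nlinarith [mul_le_mul_of_nonneg_left h2 (sub_nonneg.2 h1.2)]
  refine le_trans ?_ (key _)
  have h : ∑ p ∈ Finset.Ico (k + 1) z, (1 - localFactor f p) ≤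
      ∑ p ∈ Finset.Ioo k z, (R : ℝ) * ((p : ℝ) ^ 2)⁻¹ := by
    rw [Finset.Ico_add_one_left_eq_Ioo]
    refine Finset.sum_le_sum fun p _ => ?_
    rw [localFactor]
    split_ifs with hp
    · rw [sub_sub_cancel, div_eq_mul_inv]
      exact mul_le_mul_of_nonneg_right (by exact_mod_cast hR p hp) (by positivity)
    · rw [sub_self]
      positivity
  rw [← Finset.mul_sum] at h
  linarith [mul_le_mul_of_nonneg_left (sum_Ioo_inv_sq_le (α := ℝ) k z) (Nat.cast_nonneg R)]

/-- The density is positive exactly when no square of a prime divides every value. -/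
theorem sfDensity_pos_iff {f : ℤ[X]} (hsep : (f.map (Int.castRingHom ℚ)).Separable) :
    0 < sfDensity f ↔ ∀ p : ℕ, p.Prime → ∃ n : ℕ, ¬((p : ℤ) ^ 2) ∣ f.eval (n : ℤ) := by
  constructor
  · intro h p hp
    by_contra! hall
    have h0 : partialDensity f (p + 1) = 0 := Finset.prod_eq_zero (Finset.self_mem_range_succ p) (by
      rw [localFactor, if_pos hp, (rootCount_eq_sq_iff f hp.pos).2 hall]
      push_cast
      rw [div_self (by positivity [hp.pos]), sub_self])
    have := (ciInf_le (bddBelow_partialDensity f) (p + 1)).trans h0.le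
    rw [← sfDensity] at this
    linarith
  · intro h
    obtain ⟨R, hR⟩ := exists_rootCount_bound hsep
    have hfac : ∀ p, 0 < localFactor f p := fun p => by
      rw [localFactor]
      split_ifs with hp
      · obtain ⟨n, hn⟩ := h p hp
        have hlt : rootCount f p < p ^ 2 := lt_of_le_of_ne (rootCount_le_sq f p)
          fun e => hn ((rootCount_eq_sq_iff f hp.pos).1 e n)
        have hp0 : (0 : ℝ) < p := by exact_mod_cast hp.pos
        rw [sub_pos, div_lt_one (by positivity)]
        exact_mod_cast hlt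
      · exact one_pos
    set k := 4 * R with hk
    have hc : 0 < partialDensity f (k + 1) := Finset.prod_pos fun p _ => hfac p
    refine lt_of_lt_of_le (half_pos hc) (le_ciInf fun z => ?_)
    rcases le_total z (k + 1) with hz | hz
    · linarith [partialDensity_antitone f hz]
    · rw [partialDensity, partialDensity, ← Finset.prod_range_mul_prod_Ico _ hz]
      have h2 : (1 : ℝ) / 2 ≤ ∏ p ∈ Finset.Ico (k + 1) z, localFactor f p := by
        refine le_trans ?_ (tail_product_ge hR k z)
        have : (R : ℝ) * (2 / (k + 1)) ≤ 1 / 2 := by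
          rw [mul_div_assoc', div_le_iff₀ (by positivity), hk]
          push_cast
          linarith
        linarith
      calc _ = (∏ p ∈ Finset.range (k + 1), localFactor f p) * (1 / 2) := by ring
        _ ≤ _ := mul_le_mul_of_nonneg_left h2 hc.le

/-! ### Sieving by finitely many primes -/

/-- The primes below `z`. -/
def smallPrimes (z : ℕ) : Finset ℕ := (Finset.range z).filter Nat.Prime

theorem card_range_filter_mod {a : ℕ} {b : ℕ} (ha : 0 < a) (hb : 0 < b) (hab : a.Coprime b)
    (P Q : ℕ → Prop) [DecidablePred P] [DecidablePred Q] :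
    ((Finset.range (a * b)).filter fun n => P (n % a) ∧ Q (n % b)).card =
      ((Finset.range a).filter P).card * ((Finset.range b).filter Q).card := by
  rw [← Finset.card_product]
  refine Finset.card_nbij (fun n => (n % a, n % b)) (fun n hn => ?_) (fun m hm n hn h => ?_)
    (fun v hv => ?_)
  · simp only [Finset.mem_coe, Finset.mem_filter, Finset.mem_range] at hn
    simp [Nat.mod_lt, ha, hb, hn.2.1, hn.2.2]
  · simp only [Finset.mem_coe, Finset.mem_filter, Finset.mem_range] at hm hn
    simp only [Prod.mk.injEq] at h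
    exact Nat.ModEq.eq_of_lt_of_lt
      ((Nat.modEq_and_modEq_iff_modEq_mul hab).1 ⟨h.1, h.2⟩) hm.1 hn.1
  · simp only [Finset.mem_coe, Finset.mem_product, Finset.mem_filter, Finset.mem_range] at hv
    have h1 := (Nat.chineseRemainder hab v.1 v.2).2
    have e1 : (Nat.chineseRemainder hab v.1 v.2 : ℕ) % a = v.1 :=
      Eq.trans h1.1 (Nat.mod_eq_of_lt hv.1.1)
    have e2 : (Nat.chineseRemainder hab v.1 v.2 : ℕ) % b = v.2 :=
      Eq.trans h1.2 (Nat.mod_eq_of_lt hv.2.1)
    refine ⟨(Nat.chineseRemainder hab v.1 v.2 : ℕ), ?_, Prod.ext e1 e2⟩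
    simp only [Finset.mem_coe, Finset.mem_filter, Finset.mem_range]
    exact ⟨Nat.chineseRemainder_lt_mul hab v.1 v.2 ha.ne' hb.ne',
      by rw [e1]; exact hv.1.2, by rw [e2]; exact hv.2.2⟩

theorem dvd_eval_mod (f : ℤ[X]) {q m : ℕ} (hqm : q ∣ m) (n : ℕ) :
    (q : ℤ) ∣ f.eval (((n % m : ℕ)) : ℤ) ↔ (q : ℤ) ∣ f.eval (n : ℤ) := by
  refine dvd_iff_dvd_of_dvd_sub ((?_ : (q : ℤ) ∣ _).trans (sub_dvd_eval_sub _ _ f))
  exact Nat.modEq_iff_dvd.1 ((Nat.mod_modEq n m).symm.of_dvd hqm)

/-- The `n < N` such that no `p²`, `p ∈ s`, divides `f n`. -/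
def sifted (f : ℤ[X]) (s : Finset ℕ) (N : ℕ) : Finset ℕ :=
  (Finset.range N).filter fun n => ∀ p ∈ s, ¬((p : ℤ) ^ 2) ∣ f.eval (n : ℤ)

theorem sifted_period (f : ℤ[X]) (s : Finset ℕ) (hs : ∀ p ∈ s, p.Prime) :
    ((sifted f s (∏ p ∈ s, p ^ 2)).card : ℝ) =
      (∏ p ∈ s, (p : ℝ) ^ 2) * ∏ p ∈ s, localFactor f p := by
  induction s using Finset.induction_on with
  | empty => simp [sifted]
  | insert a s ha ih =>
    have hap := hs a (Finset.mem_insert_self a s)
    have hs' : ∀ p ∈ s, p.Prime := fun p hp => hs p (Finset.mem_insert_of_mem hp)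
    rw [Finset.prod_insert ha, Finset.prod_insert ha, Finset.prod_insert ha]
    have hco : (a ^ 2).Coprime (∏ p ∈ s, p ^ 2) := Nat.Coprime.prod_right fun p hp =>
      ((Nat.coprime_primes hap (hs' p hp)).2 fun h => ha (h ▸ hp)).pow 2 2
    have hdvd : ∀ p ∈ s, p ^ 2 ∣ ∏ p ∈ s, p ^ 2 := fun p hp => Finset.dvd_prod_of_mem _ hp
    have e : sifted f (insert a s) (a ^ 2 * ∏ p ∈ s, p ^ 2) =
        (Finset.range (a ^ 2 * ∏ p ∈ s, p ^ 2)).filter fun n =>
          (fun r : ℕ => ¬((a : ℤ) ^ 2) ∣ f.eval (r : ℤ)) (n % a ^ 2) ∧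
          (fun r : ℕ => ∀ p ∈ s, ¬((p : ℤ) ^ 2) ∣ f.eval (r : ℤ)) (n % ∏ p ∈ s, p ^ 2) := by
      refine Finset.filter_congr fun n _ => ?_
      simp only [Finset.forall_mem_insert]
      refine and_congr ?_ (forall₂_congr fun p hp => ?_) <;> rw [← Nat.cast_pow]
      · rw [dvd_eval_mod f dvd_rfl]
      · rw [dvd_eval_mod f (hdvd p hp)]
    have hc : (((Finset.range (a ^ 2)).filter
        fun r : ℕ => ¬((a : ℤ) ^ 2) ∣ f.eval (r : ℤ)).card : ℝ) =
          (a : ℝ) ^ 2 * localFactor f a := by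
      have hap0 : (a : ℝ) ≠ 0 := by exact_mod_cast hap.ne_zero
      rw [localFactor, if_pos hap, Finset.filter_not, Finset.card_sdiff_of_subset
        (Finset.filter_subset _ _), Finset.card_range, Nat.cast_sub (by exact rootCount_le_sq f a),
        mul_sub, mul_one, mul_div_cancel₀ _ (pow_ne_zero 2 hap0), Nat.cast_pow]
      rfl
    have h3 := card_range_filter_mod (pow_pos hap.pos 2)
      (Finset.prod_pos fun p hp => pow_pos (hs' p hp).pos 2) hco
      (fun r : ℕ => ¬((a : ℤ) ^ 2) ∣ f.eval (r : ℤ))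
      (fun r : ℕ => ∀ p ∈ s, ¬((p : ℤ) ^ 2) ∣ f.eval (r : ℤ))
    simp only at h3 e
    rw [e, h3, Nat.cast_mul, hc]
    rw [show ((Finset.range (∏ p ∈ s, p ^ 2)).filter fun r : ℕ =>
      ∀ p ∈ s, ¬((p : ℤ) ^ 2) ∣ f.eval (r : ℤ)) = sifted f s (∏ p ∈ s, p ^ 2) from rfl, ih hs']
    ring

/-- A predicate periodic modulo `M`: its count in `[0, N)` is `N c / M` up to `M`. -/
theorem periodic_count {M : ℕ} (hM : 0 < M) (P : ℕ → Prop) [DecidablePred P]
    (hP : ∀ n, P (n + M) ↔ P n) (N : ℕ) :
    |((((Finset.range N).filter P).card : ℝ)) -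
      (N : ℝ) * ((((Finset.range M).filter P).card : ℝ) / M)| ≤ M := by
  set c := ((Finset.range M).filter P).card
  have hq : ∀ q, Nat.count P (q * M) = q * c := by
    intro q
    induction q with
    | zero => simp
    | succ q ih =>
      have hper : ∀ n, P (q * M + n) ↔ P n := by
        intro n
        clear ih
        induction q with
        | zero => simp
        | succ q ih => rw [Nat.succ_mul, add_right_comm, hP, ih]
      rw [Nat.succ_mul, Nat.count_add, ih, Nat.succ_mul]
      congr 1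
      rw [Nat.count_eq_card_filter_range]
      exact congrArg Finset.card (Finset.filter_congr fun n _ => hper n)
  rw [← Nat.count_eq_card_filter_range]
  have h1 : (N / M) * c ≤ Nat.count P N := hq _ ▸ Nat.count_monotone P (Nat.div_mul_le_self N M)
  have hle : N ≤ (N / M + 1) * M := by
    rw [Nat.succ_mul]; exact (Nat.lt_div_mul_add hM).le
  have h2 : Nat.count P N ≤ (N / M + 1) * c := hq _ ▸ Nat.count_monotone P hle
  have h1' : ((N / M : ℕ) : ℝ) * c ≤ (Nat.count P N : ℝ) := by exact_mod_cast h1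
  have h2' : (Nat.count P N : ℝ) ≤ (((N / M : ℕ) : ℝ) + 1) * c := by exact_mod_cast h2
  have hcM : (c : ℝ) ≤ M := by
    exact_mod_cast (Finset.card_filter_le _ _).trans (Finset.card_range M).le
  have hM' : (0 : ℝ) < M := by exact_mod_cast hM
  set q := N / M with hqdef
  set r := N % M
  have hN : (N : ℝ) = (M : ℝ) * q + r := by exact_mod_cast (Nat.div_add_mod N M).symm
  have hr : (r : ℝ) ≤ M := by exact_mod_cast (Nat.mod_lt N hM).le
  have hNc : (N : ℝ) * ((c : ℝ) / M) = q * c + (r : ℝ) * c / M := by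
    rw [hN]; field_simp
  have hrc0 : 0 ≤ (r : ℝ) * c / M := by positivity
  have hrc : (r : ℝ) * c / M ≤ c := by
    rw [div_le_iff₀ hM', mul_comm (c : ℝ)]
    exact mul_le_mul_of_nonneg_right hr (Nat.cast_nonneg c)
  rw [hNc, abs_le]
  constructor <;> linarith

theorem prod_localFactor_smallPrimes (f : ℤ[X]) (z : ℕ) :
    ∏ p ∈ smallPrimes z, localFactor f p = partialDensity f z :=
  Finset.prod_filter_of_ne fun p _ h => by
    by_contra hp
    exact h (by rw [localFactor, if_neg hp])

/-- **The sieve of Eratosthenes for squares of small primes.** -/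
theorem sifted_asymptotic (f : ℤ[X]) (z N : ℕ) :
    |((sifted f (smallPrimes z) N).card : ℝ) - (N : ℝ) * partialDensity f z| ≤
      ((∏ p ∈ smallPrimes z, p ^ 2 : ℕ) : ℝ) := by
  have hs : ∀ p ∈ smallPrimes z, p.Prime := fun p hp => (Finset.mem_filter.1 hp).2
  have hM : 0 < ∏ p ∈ smallPrimes z, p ^ 2 :=
    Finset.prod_pos fun p hp => pow_pos (hs p hp).pos 2
  set M := ∏ p ∈ smallPrimes z, p ^ 2
  have hper : ∀ n, (∀ p ∈ smallPrimes z, ¬((p : ℤ) ^ 2) ∣ f.eval ((n + M : ℕ) : ℤ)) ↔
      ∀ p ∈ smallPrimes z, ¬((p : ℤ) ^ 2) ∣ f.eval (n : ℤ) := fun n =>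
    forall₂_congr fun p hp => by
      have hd : p ^ 2 ∣ M := Finset.dvd_prod_of_mem (fun p => p ^ 2) hp
      rw [← Nat.cast_pow, ← dvd_eval_mod f hd (n + M), Nat.add_mod_right, dvd_eval_mod f hd n]
  have h := periodic_count hM
    (fun n : ℕ => ∀ p ∈ smallPrimes z, ¬((p : ℤ) ^ 2) ∣ f.eval (n : ℤ)) hper N
  have e : (((Finset.range M).filter fun n : ℕ =>
      ∀ p ∈ smallPrimes z, ¬((p : ℤ) ^ 2) ∣ f.eval (n : ℤ)).card : ℝ) =
        (M : ℝ) * partialDensity f z := by
    rw [← prod_localFactor_smallPrimes, Nat.cast_prod]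
    simp only [Nat.cast_pow]
    exact sifted_period f _ hs
  rw [e, mul_div_cancel_left₀ _ (by exact_mod_cast hM.ne')] at h
  exact h

end FA.SquarefreeValues

end
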