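import Fermat.Agent.SquarefreeValues.Local
import Mathlib.NumberTheory.Chebyshev
import Mathlib.Algebra.Squarefree.Basic
import Mathlib.Analysis.SpecialFunctions.Log.Basic

/-!
# Squarefree values: the unconditional part

The number of `n < N` with `f n` squarefree is at most the sifted count, and differs from it only
by the `n` having a square factor `p²` with `z ≤ p`. The primes `p < K N` contribute
`o(N)`; for `deg f ≤ 2` there are no larger ones, which gives the density.
-/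

set_option autoImplicit false

noncomputable section

open Polynomial Filter Topology

open scoped Classical

namespace FA.SquarefreeValues

/-- The `n < N` with squarefree `f n`. -/
def sfValues (f : ℤ[X]) (N : ℕ) : Finset ℕ :=
  (Finset.range N).filter fun n => Squarefree (f.eval (n : ℤ))

/-- The `n < N` with a square factor `p²` of `f n`, `z ≤ p < L`. -/
def midBad (f : ℤ[X]) (z L N : ℕ) : Finset ℕ :=
  (Finset.range N).filter fun n =>
    ∃ p ∈ (Finset.Ico z L).filter Nat.Prime, ((p : ℤ) ^ 2) ∣ f.eval (n : ℤ)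

/-- The `n < N` with `f n ≠ 0` and a square factor `p²`, `L ≤ p`. -/
def bigBad (f : ℤ[X]) (L N : ℕ) : Finset ℕ :=
  (Finset.range N).filter fun n =>
    f.eval (n : ℤ) ≠ 0 ∧ ∃ p : ℕ, p.Prime ∧ L ≤ p ∧ ((p : ℤ) ^ 2) ∣ f.eval (n : ℤ)

/-- The natural zeros of `f` below `N`. -/
def zeros (f : ℤ[X]) (N : ℕ) : Finset ℕ :=
  (Finset.range N).filter fun n => f.eval (n : ℤ) = 0

theorem not_squarefree_of_sq_dvd {x : ℤ} {p : ℕ} (hp : p.Prime) (h : ((p : ℤ) ^ 2) ∣ x) :
    ¬Squarefree x := fun hx =>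
  (Nat.prime_iff_prime_int.1 hp).not_isUnit (hx (p : ℤ) (by rwa [← sq]))

theorem exists_sq_dvd {x : ℤ} (h : ¬Squarefree x) :
    ∃ p : ℕ, p.Prime ∧ ((p : ℤ) ^ 2) ∣ x := by
  rw [← Int.squarefree_natAbs, Nat.squarefree_iff_prime_squarefree] at h
  push Not at h
  obtain ⟨p, hp, hd⟩ := h
  exact ⟨p, hp, by rw [sq, ← Nat.cast_mul]; exact Int.natCast_dvd.2 hd⟩

theorem sfValues_subset (f : ℤ[X]) (z N : ℕ) : sfValues f N ⊆ sifted f (smallPrimes z) N :=
  fun n hn => by
    obtain ⟨h1, h2⟩ := Finset.mem_filter.1 hn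
    exact Finset.mem_filter.2 ⟨h1, fun p hp hd =>
      not_squarefree_of_sq_dvd (Finset.mem_filter.1 hp).2 hd h2⟩

theorem sifted_subset (f : ℤ[X]) (z L N : ℕ) :
    sifted f (smallPrimes z) N ⊆
      sfValues f N ∪ (zeros f N ∪ (midBad f z L N ∪ bigBad f L N)) := fun n hn => by
  obtain ⟨h1, h2⟩ := Finset.mem_filter.1 hn
  by_cases hsf : Squarefree (f.eval (n : ℤ))
  · exact Finset.mem_union_left _ (Finset.mem_filter.2 ⟨h1, hsf⟩)
  refine Finset.mem_union_right _ ?_
  by_cases h0 : f.eval (n : ℤ) = 0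
  · exact Finset.mem_union_left _ (Finset.mem_filter.2 ⟨h1, h0⟩)
  refine Finset.mem_union_right _ ?_
  obtain ⟨p, hp, hd⟩ := exists_sq_dvd hsf
  have hzp : z ≤ p := by
    by_contra! hlt
    exact h2 p (Finset.mem_filter.2 ⟨Finset.mem_range.2 hlt, hp⟩) hd
  rcases lt_or_ge p L with hL | hL
  · exact Finset.mem_union_left _ (Finset.mem_filter.2 ⟨h1, p,
      Finset.mem_filter.2 ⟨Finset.mem_Ico.2 ⟨hzp, hL⟩, hp⟩, hd⟩)
  · exact Finset.mem_union_right _ (Finset.mem_filter.2 ⟨h1, h0, p, hp, hL, hd⟩)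

theorem card_zeros_le {f : ℤ[X]} (hf : f ≠ 0) (N : ℕ) : (zeros f N).card ≤ f.natDegree := by
  refine le_trans ?_ ((Multiset.toFinset_card_le _).trans (card_roots' f))
  refine Finset.card_le_card_of_injOn (fun n : ℕ => (n : ℤ)) (fun n hn => ?_) fun m _ n _ h => ?_
  · show (n : ℤ) ∈ _
    rw [Finset.mem_coe, Multiset.mem_toFinset, mem_roots hf]
    exact (Finset.mem_filter.1 hn).2
  · exact Int.ofNat_inj.1 h

/-- In each period of length `p²` there are `rootCount f p` bad `n`. -/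
theorem card_sq_dvd_le (f : ℤ[X]) {p : ℕ} (hp : 0 < p) (N : ℕ) :
    (((Finset.range N).filter fun n : ℕ => ((p : ℤ) ^ 2) ∣ f.eval (n : ℤ)).card : ℝ) ≤
      (rootCount f p : ℝ) * ((N : ℝ) / (p : ℝ) ^ 2 + 1) := by
  have hle : ((Finset.range N).filter fun n : ℕ => ((p : ℤ) ^ 2) ∣ f.eval (n : ℤ)).card ≤
      rootCount f p * (N / p ^ 2 + 1) := by
    rw [rootCount, ← Finset.card_range (N / p ^ 2 + 1), ← Finset.card_product]
    refine Finset.card_le_card_of_injOn (fun n => (n % p ^ 2, n / p ^ 2)) (fun n hn => ?_)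
      fun m _ n _ h => ?_
    · obtain ⟨h1, h2⟩ := Finset.mem_filter.1 hn
      simp only [Finset.coe_product, Set.mem_prod, Finset.mem_coe, Finset.mem_filter,
        Finset.mem_range]
      refine ⟨⟨Nat.mod_lt _ (by positivity), ?_⟩,
        Nat.lt_succ_of_le (Nat.div_le_div_right (Finset.mem_range.1 h1).le)⟩
      rw [← Nat.cast_pow] at h2 ⊢
      exact (dvd_eval_mod f dvd_rfl n).2 h2
    · simp only [Prod.mk.injEq] at h
      rw [← Nat.mod_add_div m (p ^ 2), h.1, h.2, Nat.mod_add_div]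
  have h' : (((Finset.range N).filter fun n : ℕ => ((p : ℤ) ^ 2) ∣ f.eval (n : ℤ)).card : ℝ) ≤
      (rootCount f p : ℝ) * (((N / p ^ 2 : ℕ) : ℝ) + 1) := by exact_mod_cast hle
  refine h'.trans (mul_le_mul_of_nonneg_left (by
    have := Nat.cast_div_le (α := ℝ) (m := N) (n := p ^ 2)
    push_cast at this
    linarith) (Nat.cast_nonneg _))

/-- The primes in the middle range contribute little. -/
theorem card_midBad_le {f : ℤ[X]} {R : ℕ} (hR : ∀ p : ℕ, p.Prime → rootCount f p ≤ R)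
    (k L N : ℕ) :
    ((midBad f (k + 1) L N).card : ℝ) ≤
      (R : ℝ) * N * (2 / (k + 1)) + R * (Nat.primeCounting L : ℝ) := by
  set P := (Finset.Ico (k + 1) L).filter Nat.Prime with hP
  have hsub : midBad f (k + 1) L N ⊆
      P.biUnion fun p => (Finset.range N).filter fun n : ℕ => ((p : ℤ) ^ 2) ∣ f.eval (n : ℤ) :=
    fun n hn => by
      obtain ⟨h1, p, hp, hd⟩ := Finset.mem_filter.1 hn
      exact Finset.mem_biUnion.2 ⟨p, hp, Finset.mem_filter.2 ⟨h1, hd⟩⟩
  have h1 : ((midBad f (k + 1) L N).card : ℝ) ≤ ∑ p ∈ P,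
      ((((Finset.range N).filter fun n : ℕ => ((p : ℤ) ^ 2) ∣ f.eval (n : ℤ))).card : ℝ) := by
    exact_mod_cast (Finset.card_le_card hsub).trans Finset.card_biUnion_le
  have h2 : ∑ p ∈ P,
      ((((Finset.range N).filter fun n : ℕ => ((p : ℤ) ^ 2) ∣ f.eval (n : ℤ))).card : ℝ) ≤
      ∑ p ∈ P, ((R : ℝ) * N * ((p : ℝ) ^ 2)⁻¹ + R) := by
    refine Finset.sum_le_sum fun p hp => ?_
    have hpp : p.Prime := (Finset.mem_filter.1 hp).2
    refine (card_sq_dvd_le f hpp.pos N).trans ?_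
    refine (mul_le_mul_of_nonneg_right (Nat.cast_le.2 (hR p hpp)) (by positivity)).trans_eq ?_
    ring
  rw [Finset.sum_add_distrib, ← Finset.mul_sum, Finset.sum_const, nsmul_eq_mul] at h2
  have h3 : ∑ p ∈ P, ((p : ℝ) ^ 2)⁻¹ ≤ 2 / (k + 1) := by
    refine le_trans ?_ (sum_Ioo_inv_sq_le (α := ℝ) k L)
    rw [← Finset.Ico_add_one_left_eq_Ioo]
    exact Finset.sum_le_sum_of_subset_of_nonneg (Finset.filter_subset _ _) fun _ _ _ => by
      positivity
  have h4 : (P.card : ℝ) ≤ (Nat.primeCounting L : ℝ) := by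
    rw [← Nat.primesLE_card_eq_primeCounting]
    refine Nat.cast_le.2 (Finset.card_le_card fun p hp => ?_)
    simp only [P, Finset.mem_filter, Finset.mem_Ico] at hp
    exact Nat.mem_primesLE.2 ⟨hp.1.2.le, hp.2⟩
  nlinarith [mul_le_mul_of_nonneg_left h3 (show 0 ≤ (R : ℝ) * N by positivity),
    mul_le_mul_of_nonneg_left h4 (Nat.cast_nonneg R : (0 : ℝ) ≤ R)]

/-- Chebyshev: `π (K N) = o(N)`. -/
theorem eventually_primeCounting_mul_le (K : ℕ) {η : ℝ} (hη : 0 < η) :
    ∀ᶠ N : ℕ in atTop, (Nat.primeCounting (K * N) : ℝ) ≤ η * N := by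
  rcases Nat.eq_zero_or_pos K with rfl | hK
  · exact Eventually.of_forall fun N => by simp; positivity
  have hKN : Tendsto (fun N : ℕ => ((K * N : ℕ) : ℝ)) atTop atTop :=
    tendsto_natCast_atTop_atTop.comp (tendsto_atTop_mono (fun N => Nat.le_mul_of_pos_left N hK)
      tendsto_id)
  filter_upwards [hKN.eventually (Chebyshev.eventually_primeCounting_le one_pos),
    (Real.tendsto_log_atTop.comp hKN).eventually_ge_atTop ((Real.log 4 + 1) * K / η),
    (Real.tendsto_log_atTop.comp hKN).eventually_gt_atTop 0] with N h1 h2 h3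
  rw [Nat.floor_natCast] at h1
  simp only [Function.comp_apply] at h2 h3
  refine h1.trans ?_
  rw [div_le_iff₀ h3]
  rw [div_le_iff₀ hη] at h2
  push_cast at h2 ⊢
  nlinarith [mul_le_mul_of_nonneg_right h2 (Nat.cast_nonneg N)]

/-- The density follows as soon as the large primes are negligible. -/
theorem density_of_bigBad {f : ℤ[X]} (hsep : (f.map (Int.castRingHom ℚ)).Separable)
    (hbig : ∀ η : ℝ, 0 < η → ∃ K : ℕ, ∀ᶠ N : ℕ in atTop,
      ((bigBad f (K * N) N).card : ℝ) ≤ η * N) :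
    Tendsto (fun N : ℕ => ((sfValues f N).card : ℝ) / N) atTop (𝓝 (sfDensity f)) := by
  obtain ⟨R, hR⟩ := exists_rootCount_bound hsep
  have hf0 : f ≠ 0 := fun h => hsep.ne_zero (by rw [h, Polynomial.map_zero])
  rw [Metric.tendsto_nhds]
  intro η hη
  set e := η / 8 with he
  have he0 : 0 < e := by positivity
  obtain ⟨K, hK⟩ := hbig e he0
  obtain ⟨k₀, hk₀⟩ := exists_nat_ge (2 * (R : ℝ) / e)
  have hev : ∀ᶠ z in atTop, partialDensity f z < sfDensity f + e :=
    (tendsto_partialDensity f).eventually (gt_mem_nhds (by linarith))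
  obtain ⟨z₁, hz₁⟩ := hev.exists_forall_of_atTop
  set k := max k₀ z₁ with hk
  set z := k + 1
  have hδz : partialDensity f z < sfDensity f + e := hz₁ z (by omega)
  have hδz' : sfDensity f ≤ partialDensity f z := ciInf_le (bddBelow_partialDensity f) z
  have htail : (R : ℝ) * (2 / (k + 1)) ≤ e := by
    rw [mul_div_assoc', div_le_iff₀ (by positivity)]
    rw [div_le_iff₀ he0] at hk₀
    have : (k₀ : ℝ) ≤ k := by exact_mod_cast le_max_left k₀ z₁
    nlinarith
  obtain ⟨C, hC⟩ := exists_nat_ge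
    (((f.natDegree : ℝ) + ((∏ p ∈ smallPrimes z, p ^ 2 : ℕ) : ℝ)) / e)
  filter_upwards [hK, eventually_primeCounting_mul_le K (show 0 < e / (R + 1) by positivity),
    eventually_ge_atTop C, eventually_gt_atTop 0] with N hbigN hpi hCN hN
  have hN' : (0 : ℝ) < N := by exact_mod_cast hN
  have hconst : (f.natDegree : ℝ) + ((∏ p ∈ smallPrimes z, p ^ 2 : ℕ) : ℝ) ≤ e * N := by
    rw [div_le_iff₀ he0] at hC
    have : (C : ℝ) ≤ N := by exact_mod_cast hCN
    nlinarith
  have hM0 : (0 : ℝ) ≤ ((∏ p ∈ smallPrimes z, p ^ 2 : ℕ) : ℝ) := Nat.cast_nonneg _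
  have hd0 : (0 : ℝ) ≤ f.natDegree := Nat.cast_nonneg _
  have hs := abs_le.1 (sifted_asymptotic f z N)
  have hup : ((sfValues f N).card : ℝ) ≤ ((sifted f (smallPrimes z) N).card : ℝ) := by
    exact_mod_cast Finset.card_le_card (sfValues_subset f z N)
  have hlow : ((sifted f (smallPrimes z) N).card : ℝ) ≤ ((sfValues f N).card : ℝ) +
      ((zeros f N).card + ((midBad f z (K * N) N).card + (bigBad f (K * N) N).card)) := by
    exact_mod_cast (Finset.card_le_card (sifted_subset f z (K * N) N)).trans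
      ((Finset.card_union_le _ _).trans (Nat.add_le_add_left ((Finset.card_union_le _ _).trans
        (Nat.add_le_add_left (Finset.card_union_le _ _) _)) _))
  have hzeros : ((zeros f N).card : ℝ) ≤ f.natDegree := by exact_mod_cast card_zeros_le hf0 N
  have hmid : ((midBad f z (K * N) N).card : ℝ) ≤ 2 * e * N := by
    refine (card_midBad_le hR k (K * N) N).trans ?_
    have : (R : ℝ) * (Nat.primeCounting (K * N) : ℝ) ≤ e * N := by
      refine (mul_le_mul_of_nonneg_left hpi (Nat.cast_nonneg R)).trans ?_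
      rw [div_mul_eq_mul_div, mul_div_assoc', div_le_iff₀ (by positivity)]
      nlinarith [mul_nonneg he0.le hN'.le]
    nlinarith
  rw [Real.dist_eq, abs_lt]
  have hsplit : ((sfValues f N).card : ℝ) / N * N = ((sfValues f N).card : ℝ) :=
    div_mul_cancel₀ _ hN'.ne'
  constructor <;> refine lt_of_mul_lt_mul_right ?_ hN'.le <;>
    nlinarith [mul_le_mul_of_nonneg_left hδz.le hN'.le, mul_le_mul_of_nonneg_left hδz' hN'.le,
      mul_pos he0 hN']

/-- A bound for the values of `f` on `[0, N]`. -/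
theorem exists_eval_bound (f : ℤ[X]) :
    ∃ W : ℕ, 0 < W ∧ ∀ n : ℕ, 0 < n → (f.eval (n : ℤ)).natAbs ≤ W * n ^ f.natDegree := by
  refine ⟨∑ i ∈ Finset.range (f.natDegree + 1), (f.coeff i).natAbs + 1, Nat.succ_pos _,
    fun n hn => ?_⟩
  rw [eval_eq_sum_range, add_mul, Finset.sum_mul]
  refine (Int.natAbs_sum_le _ _).trans ((Finset.sum_le_sum fun i hi => ?_).trans le_self_add)
  rw [Int.natAbs_mul, Int.natAbs_pow, Int.natAbs_natCast]
  exact Nat.mul_le_mul le_rfl (Nat.pow_le_pow_right hn (Nat.lt_succ_iff.1 (Finset.mem_range.1 hi)))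

/-- For degree at most two there are no large primes at all. -/
theorem bigBad_eq_empty {f : ℤ[X]} (hd : f.natDegree ≤ 2) :
    ∃ K : ℕ, ∀ᶠ N : ℕ in atTop, bigBad f (K * N) N = ∅ := by
  obtain ⟨W, hW, hWb⟩ := exists_eval_bound f
  refine ⟨W + 1, ?_⟩
  filter_upwards [eventually_gt_atTop (f.eval 0).natAbs] with N hN
  refine Finset.filter_eq_empty_iff.2 fun n hn => ?_
  rintro ⟨h0, p, hp, hLp, hd'⟩
  rw [Finset.mem_range] at hn
  rw [← Nat.cast_pow, Int.natCast_dvd] at hd'
  have hle := Nat.le_of_dvd (Int.natAbs_pos.2 h0) hd'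
  have hp2 : ((W + 1) * N) ^ 2 ≤ p ^ 2 := Nat.pow_le_pow_left hLp 2
  rcases Nat.eq_zero_or_pos n with rfl | hn0
  · rw [Nat.cast_zero] at hle
    have : N ≤ ((W + 1) * N) ^ 2 :=
      (Nat.le_self_pow two_ne_zero N).trans
        (Nat.pow_le_pow_left (Nat.le_mul_of_pos_left N (by omega)) 2)
    omega
  · have h1 := (hle.trans (hWb n hn0)).trans
      (Nat.mul_le_mul le_rfl (Nat.pow_le_pow_right hn0 hd))
    have h2 : n ^ 2 < N ^ 2 := Nat.pow_lt_pow_left hn two_ne_zero
    have h3 : (W + 1) * N ^ 2 ≤ ((W + 1) * N) ^ 2 := by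
      rw [mul_pow]
      exact Nat.mul_le_mul (Nat.le_self_pow two_ne_zero _) le_rfl
    have h4 : W * n ^ 2 < (W + 1) * N ^ 2 :=
      (Nat.mul_le_mul le_rfl h2.le).trans_lt (Nat.mul_lt_mul_of_pos_right (Nat.lt_succ_self W)
        (by omega))
    omega

/-- **The density of squarefree values in degree at most two**, unconditionally. -/
theorem density_natDegree_le_two {f : ℤ[X]} (hsep : (f.map (Int.castRingHom ℚ)).Separable)
    (hd : f.natDegree ≤ 2) :
    Tendsto (fun N : ℕ => ((sfValues f N).card : ℝ) / N) atTop (𝓝 (sfDensity f)) := by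
  obtain ⟨K, hK⟩ := bigBad_eq_empty hd
  refine density_of_bigBad hsep fun η hη => ⟨K, hK.mono fun N hN => ?_⟩
  rw [hN]
  simp only [Finset.card_empty, Nat.cast_zero]
  positivity

/-- **The unconditional upper bound.** -/
theorem eventually_sfValues_le (f : ℤ[X]) {η : ℝ} (hη : 0 < η) :
    ∀ᶠ N : ℕ in atTop, ((sfValues f N).card : ℝ) ≤ (sfDensity f + η) * N := by
  obtain ⟨z, hz⟩ := ((tendsto_partialDensity f).eventually
    (gt_mem_nhds (show sfDensity f < sfDensity f + η / 2 by linarith))).exists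
  obtain ⟨C, hC⟩ := exists_nat_ge (((∏ p ∈ smallPrimes z, p ^ 2 : ℕ) : ℝ) / (η / 2))
  filter_upwards [eventually_ge_atTop C] with N hN
  rw [div_le_iff₀ (by positivity)] at hC
  have hN' : (C : ℝ) ≤ N := by exact_mod_cast hN
  have hs := abs_le.1 (sifted_asymptotic f z N)
  have hup : ((sfValues f N).card : ℝ) ≤ ((sifted f (smallPrimes z) N).card : ℝ) := by
    exact_mod_cast Finset.card_le_card (sfValues_subset f z N)
  nlinarith [mul_le_mul_of_nonneg_left hz.le (Nat.cast_nonneg N : (0 : ℝ) ≤ N),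
    mul_le_mul_of_nonneg_right hN' (by positivity : 0 ≤ η / 2)]

end FA.SquarefreeValues

end
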