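import Fermat.Agent.SquarefreeValues.Sieve
import Fermat.Agent.Belyi.Langevin
import Mathlib.Data.Int.NatAbs

/-!
# Granville's theorem on squarefree values

Under the abc bound large primes are negligible: the radical bound applied to a product of spaced
shifts of `f` shows that in a block of `l` spaced arguments at most one value has a square factor
`p²` with `N ≤ p`.
-/

set_option autoImplicit false

noncomputable section

open Polynomial Filter Topology

open UniqueFactorizationMonoid (radical)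

open scoped Classical

namespace FA.SquarefreeValues

/-- The product of `l` shifts of `f`, spaced by `M`. -/
def shiftProduct (f : ℤ[X]) (M l : ℕ) : ℤ[X] :=
  ∏ i ∈ Finset.range l, f.comp (X + C ((M * i : ℕ) : ℤ))

theorem shiftProduct_eval (f : ℤ[X]) (M l : ℕ) (x : ℤ) :
    (shiftProduct f M l).eval x = ∏ i ∈ Finset.range l, f.eval (x + (M * i : ℕ)) := by
  simp [shiftProduct, eval_prod, eval_comp]

theorem shiftProduct_natDegree {f : ℤ[X]} (hf : f ≠ 0) (M l : ℕ) :
    (shiftProduct f M l).natDegree = l * f.natDegree := by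
  have h : ∀ i ∈ Finset.range l, f.comp (X + C ((M * i : ℕ) : ℤ)) ≠ 0 := fun i _ h0 => by
    rcases comp_eq_zero_iff.1 h0 with h1 | ⟨-, h1⟩
    · exact hf h1
    · have := congrArg natDegree h1
      rw [natDegree_X_add_C, natDegree_C] at this
      omega
  rw [shiftProduct, natDegree_prod _ _ h, Finset.sum_congr rfl fun i _ => by
    rw [natDegree_comp, natDegree_X_add_C, mul_one], Finset.sum_const, Finset.card_range,
    smul_eq_mul]

/-- If the spacing is large the product of the shifts is still separable. -/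
theorem exists_spacing {f : ℤ[X]} (hsep : (f.map (Int.castRingHom ℚ)).Separable) :
    ∃ M : ℕ, 0 < M ∧ ∀ l, ((shiftProduct f M l).map (Int.castRingHom ℚ)).Separable := by
  set g := f.map (Int.castRingHom ℚ) with hg
  obtain ⟨M, hM⟩ := exists_nat_gt (2 * ∑ z ∈ (g.aroots ℂ).toFinset, ‖z‖)
  have hpos : 0 < M := Nat.pos_of_ne_zero fun h => by
    subst h
    have : (0 : ℝ) ≤ ∑ z ∈ (g.aroots ℂ).toFinset, ‖z‖ := Finset.sum_nonneg fun z _ => norm_nonneg z
    push_cast at hM
    linarith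
  refine ⟨M, hpos, fun l => ?_⟩
  rw [shiftProduct, Polynomial.map_prod]
  refine separable_prod' (fun i hi j hj hij => ?_) fun i _ => ?_
  · rw [Polynomial.map_comp, Polynomial.map_comp, ← hg, Polynomial.map_add, Polynomial.map_add,
      map_X, map_C, map_C, eq_intCast, eq_intCast,
      Polynomial.isCoprime_iff_aeval_ne_zero_of_isAlgClosed (k := ℚ) (K := ℂ)]
    intro z
    by_contra! h
    obtain ⟨h1, h2⟩ := h
    rw [aeval_comp, map_add, aeval_X, aeval_C] at h1 h2
    rw [Int.cast_natCast, map_natCast] at h1 h2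
    have hroot : ∀ w : ℂ, aeval w g = 0 → ‖w‖ ≤ ∑ z ∈ (g.aroots ℂ).toFinset, ‖z‖ := fun w hw =>
      Finset.single_le_sum (f := fun z : ℂ => ‖z‖) (fun z _ => norm_nonneg z)
        (Multiset.mem_toFinset.2 (mem_aroots.2 ⟨hsep.ne_zero, hw⟩))
    have hle : (M : ℝ) ≤ ‖(z + ((M * i : ℕ) : ℂ)) - (z + ((M * j : ℕ) : ℂ))‖ := by
      rw [add_sub_add_left_eq_sub,
        show ((M * i : ℕ) : ℂ) - ((M * j : ℕ) : ℂ) = ((((M : ℤ) * (i - j) : ℤ)) : ℂ) by
          push_cast; ring,
        Complex.norm_intCast, ← Int.cast_abs, abs_mul, Nat.abs_cast]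
      have : (M : ℤ) ≤ (M : ℤ) * |(i : ℤ) - j| :=
        le_mul_of_one_le_right (Int.natCast_nonneg M)
          (Int.one_le_abs (sub_ne_zero.2 (by exact_mod_cast hij)))
      have h' := (Int.cast_le (R := ℝ)).2 this
      rwa [Int.cast_natCast] at h'
    have := norm_sub_le (z + ((M * i : ℕ) : ℂ)) (z + ((M * j : ℕ) : ℂ))
    have := hroot _ h1
    have := hroot _ h2
    linarith
  · rw [Polynomial.map_comp, ← hg, Polynomial.map_add, map_X, map_C]
    obtain ⟨a, b, hab⟩ := (separable_def' _).1 hsep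
    set t := (X : ℚ[X]) + C ((Int.castRingHom ℚ) ((M * i : ℕ) : ℤ)) with ht
    refine (separable_def' _).2 ⟨a.comp t, b.comp t, ?_⟩
    have hd : derivative t = 1 := by rw [ht, derivative_add, derivative_X, derivative_C, add_zero]
    rw [derivative_comp, hd, one_mul, ← mul_comp, ← mul_comp, ← add_comp, hab, one_comp]

theorem rad_mul_prime_le {v p : ℕ} (hv : v ≠ 0) (hp : p.Prime) (hd : p ^ 2 ∣ v) :
    radical v * p ≤ v := by
  obtain ⟨w, rfl⟩ := hd
  have hw : w ≠ 0 := fun h => hv (by simp [h])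
  calc radical (p ^ 2 * w) * p ≤ p * w * p := Nat.mul_le_mul
        ((FA.Abc.rad_mul_le _ _).trans (Nat.mul_le_mul (FA.Abc.rad_pow_le hp.ne_zero 2)
          (FA.Abc.rad_le_self hw))) le_rfl
    _ = p ^ 2 * w := by ring

/-- Two square factors save `p q` in the radical of a product. -/
theorem rad_prod_mul_le {ι : Type*} (s : Finset ι) (v : ι → ℕ) (hv : ∀ i ∈ s, v i ≠ 0) {i j : ι}
    (hi : i ∈ s) (hj : j ∈ s) (hij : i ≠ j) {p q : ℕ} (hp : p.Prime) (hq : q.Prime)
    (hpd : p ^ 2 ∣ v i) (hqd : q ^ 2 ∣ v j) : radical (∏ k ∈ s, v k) * (p * q) ≤ ∏ k ∈ s, v k := by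
  have hj' : j ∈ s.erase i := Finset.mem_erase.2 ⟨hij.symm, hj⟩
  rw [← Finset.mul_prod_erase s v hi, ← Finset.mul_prod_erase (s.erase i) v hj']
  set r := ∏ k ∈ (s.erase i).erase j, v k
  have hr : r ≠ 0 := Finset.prod_ne_zero_iff.2 fun k hk =>
    hv k (Finset.mem_of_mem_erase (Finset.mem_of_mem_erase hk))
  calc radical (v i * (v j * r)) * (p * q)
      ≤ radical (v i) * (radical (v j) * r) * (p * q) := Nat.mul_le_mul
        ((FA.Abc.rad_mul_le _ _).trans (Nat.mul_le_mul le_rfl ((FA.Abc.rad_mul_le _ _).trans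
          (Nat.mul_le_mul le_rfl (FA.Abc.rad_le_self hr))))) le_rfl
    _ = radical (v i) * p * (radical (v j) * q * r) := by ring
    _ ≤ v i * (v j * r) := Nat.mul_le_mul (rad_mul_prime_le (hv i hi) hp hpd)
        (Nat.mul_le_mul (rad_mul_prime_le (hv j hj) hq hqd) le_rfl)

/-- In a block of spaced arguments at most one value has a large square factor. -/
theorem block_unique (habc : FA.Abc.ABCBound) {f : ℤ[X]}
    (hsep : (f.map (Int.castRingHom ℚ)).Separable) (hd : 0 < f.natDegree) {M l : ℕ} (hl : 0 < l)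
    (hMl : ((shiftProduct f M l).map (Int.castRingHom ℚ)).Separable) :
    ∃ N₀ : ℕ, ∀ N n₀ : ℕ, N₀ ≤ N → M * l ≤ n₀ → 0 < n₀ → n₀ ≤ N →
      (∀ i < l, f.eval ((n₀ + M * i : ℕ) : ℤ) ≠ 0) → ∀ i < l, ∀ j < l,
      (∃ p : ℕ, p.Prime ∧ N ≤ p ∧ ((p : ℤ) ^ 2) ∣ f.eval ((n₀ + M * i : ℕ) : ℤ)) →
      (∃ q : ℕ, q.Prime ∧ N ≤ q ∧ ((q : ℤ) ^ 2) ∣ f.eval ((n₀ + M * j : ℕ) : ℤ)) → i = j := by
  have hf0 : f ≠ 0 := fun h => hsep.ne_zero (by rw [h, Polynomial.map_zero])
  set F := shiftProduct f M l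
  have hFd : F.natDegree = l * f.natDegree := shiftProduct_natDegree hf0 M l
  obtain ⟨C, hC⟩ := FA.Belyi.rad_value_lower habc hMl (by rw [hFd]; positivity)
    (ε := 1 / 4) (by norm_num)
  obtain ⟨W, -, hWb⟩ := exists_eval_bound f
  set T : ℕ := (W * 2 ^ f.natDegree) ^ l
  obtain ⟨N₀, hN₀⟩ := exists_nat_gt ((max C 1 * (T : ℝ)) ^ 2)
  refine ⟨N₀ + 1, fun N n₀ hN hn₀ hn0pos hn₀N hne i hi j hj hpi hqj => ?_⟩
  obtain ⟨p, hp, hNp, hpd⟩ := hpi
  obtain ⟨q, hq, hNq, hqd⟩ := hqj
  by_contra hij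
  set v : ℕ → ℕ := fun k => (f.eval ((n₀ + M * k : ℕ) : ℤ)).natAbs with hv
  have hprod : (F.eval (n₀ : ℤ)).natAbs = ∏ k ∈ Finset.range l, v k := by
    rw [shiftProduct_eval]
    refine (map_prod Int.natAbsHom _ _).trans (Finset.prod_congr rfl fun k _ => ?_)
    rw [hv]
    simp only [Nat.cast_add]
    rfl
  have hF0 : F.eval (n₀ : ℤ) ≠ 0 := by
    rw [← Int.natAbs_ne_zero, hprod]
    exact Finset.prod_ne_zero_iff.2 fun k hk => Int.natAbs_ne_zero.2 (hne k (Finset.mem_range.1 hk))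
  have e := hC (n₀ : ℤ) (by omega) hF0
  rw [hprod, Int.natAbs_natCast] at e
  have hpd' : p ^ 2 ∣ v i := by
    rw [← Nat.cast_pow] at hpd; exact Int.natCast_dvd.1 hpd
  have hqd' : q ^ 2 ∣ v j := by
    rw [← Nat.cast_pow] at hqd; exact Int.natCast_dvd.1 hqd
  set r := radical (∏ k ∈ Finset.range l, v k)
  have h1 : r * (N * N) ≤ T * n₀ ^ F.natDegree := by
    refine (Nat.mul_le_mul le_rfl (Nat.mul_le_mul hNp hNq)).trans ((rad_prod_mul_le _ v
      (fun k hk => Int.natAbs_ne_zero.2 (hne k (Finset.mem_range.1 hk))) (Finset.mem_range.2 hi)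
      (Finset.mem_range.2 hj) hij hp hq hpd' hqd').trans ?_)
    rw [hFd, mul_comm l, pow_mul, ← mul_pow]
    refine (Finset.prod_le_pow_card _ _ _ fun k hk => ?_).trans_eq (by rw [Finset.card_range])
    have hk' := Nat.mul_le_mul_left M (Finset.mem_range.1 hk).le
    calc v k ≤ W * (n₀ + M * k) ^ f.natDegree := hWb _ (by omega)
      _ ≤ W * (2 * n₀) ^ f.natDegree := Nat.mul_le_mul le_rfl (Nat.pow_le_pow_left (by omega) _)
      _ = W * 2 ^ f.natDegree * n₀ ^ f.natDegree := by rw [mul_pow]; ring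
  set x : ℝ := (n₀ : ℝ)
  set y : ℝ := (N : ℝ)
  have hx1 : 1 ≤ x := Nat.one_le_cast.2 hn0pos
  have hxy : x ≤ y := Nat.cast_le.2 hn₀N
  set D := F.natDegree
  have h1' : (r : ℝ) * (y * y) ≤ (T : ℝ) * x ^ (D : ℝ) := by
    have h' := (Nat.cast_le (α := ℝ)).2 h1
    push_cast at h'
    rwa [Real.rpow_natCast]
  have h2 : x ^ ((D : ℝ) - 1 - 1 / 4) * (y * y) ≤
      max C 1 * (T : ℝ) * (x ^ ((D : ℝ) - 1 - 1 / 4) * x ^ (5 / 4 : ℝ)) := by
    rw [← Real.rpow_add (by linarith), show (D : ℝ) - 1 - 1 / 4 + 5 / 4 = D by ring]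
    calc x ^ ((D : ℝ) - 1 - 1 / 4) * (y * y) ≤ max C 1 * r * (y * y) :=
          mul_le_mul_of_nonneg_right
            (e.trans (mul_le_mul_of_nonneg_right (le_max_left _ _) (Nat.cast_nonneg _)))
            (mul_self_nonneg y)
      _ ≤ max C 1 * ((T : ℝ) * x ^ (D : ℝ)) := by
          rw [mul_assoc]; exact mul_le_mul_of_nonneg_left h1' (by positivity)
      _ = _ := by ring
  have h3 : y * y ≤ max C 1 * (T : ℝ) * y ^ (5 / 4 : ℝ) := by
    have hxp : 0 < x ^ ((D : ℝ) - 1 - 1 / 4) := Real.rpow_pos_of_pos (by linarith) _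
    refine le_trans ?_ (mul_le_mul_of_nonneg_left
      (Real.rpow_le_rpow (by linarith) hxy (by norm_num : (0 : ℝ) ≤ 5 / 4)) (by positivity))
    refine le_of_mul_le_mul_left ?_ hxp
    linarith
  have hy1 : 1 ≤ y := hx1.trans hxy
  have h4 : y ^ (1 / 2 : ℝ) ≤ max C 1 * (T : ℝ) := by
    refine le_of_mul_le_mul_right (le_trans ?_ h3) (by positivity : 0 < y ^ (5 / 4 : ℝ))
    rw [← Real.rpow_add (by linarith), ← sq, ← Real.rpow_natCast]
    exact Real.rpow_le_rpow_of_exponent_le hy1 (by norm_num)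
  have h5 := pow_le_pow_left₀ (by positivity) h4 2
  rw [← Real.rpow_mul_natCast (by linarith)] at h5
  norm_num at h5
  have h6 : N < N₀ := Nat.cast_lt.1 (h5.trans_lt hN₀)
  omega

/-- **Granville's key lemma**: under abc the large primes are negligible. -/
theorem bigBad_small (habc : FA.Abc.ABCBound) {f : ℤ[X]}
    (hsep : (f.map (Int.castRingHom ℚ)).Separable) (hd : 0 < f.natDegree) {η : ℝ} (hη : 0 < η) :
    ∃ K : ℕ, ∀ᶠ N : ℕ in atTop, ((bigBad f (K * N) N).card : ℝ) ≤ η * N := by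
  obtain ⟨M, hM, hMsep⟩ := exists_spacing hsep
  obtain ⟨l, hl⟩ := exists_nat_gt (2 / η)
  have hl0 : 0 < l := Nat.pos_of_ne_zero fun h => by
    subst h
    have : 0 < 2 / η := by positivity
    push_cast at hl
    linarith
  obtain ⟨N₀, hN₀⟩ := block_unique habc hsep hd hl0 (hMsep l)
  have hf0 : f ≠ 0 := fun h => hsep.ne_zero (by rw [h, Polynomial.map_zero])
  obtain ⟨Z, hZ⟩ := (f.roots.toFinset.image Int.natAbs).bddAbove
  have hZ' : ∀ n : ℕ, Z < n → f.eval (n : ℤ) ≠ 0 := fun n hn h0 => by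
    have : n ≤ Z := hZ (Finset.mem_image.2 ⟨(n : ℤ),
      Multiset.mem_toFinset.2 ((mem_roots hf0).2 h0), Int.natAbs_natCast n⟩)
    omega
  set B := M * l * (Z + 1) with hB
  obtain ⟨C, hC⟩ := exists_nat_ge (((B : ℝ) + M) / (η / 2))
  refine ⟨1, ?_⟩
  filter_upwards [eventually_ge_atTop N₀, eventually_ge_atTop C] with N hN hCN
  rw [one_mul]
  have hML : 0 < M * l := Nat.mul_pos hM hl0
  have hcard : (bigBad f N N).card ≤ B + M * (N / (M * l) + 1) := by
    have hsplit : bigBad f N N ⊆ Finset.range B ∪ (bigBad f N N).filter fun n => B ≤ n :=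
      fun n hn => by
        rcases lt_or_ge n B with h | h
        · exact Finset.mem_union_left _ (Finset.mem_range.2 h)
        · exact Finset.mem_union_right _ (Finset.mem_filter.2 ⟨hn, h⟩)
    refine (Finset.card_le_card hsplit).trans ((Finset.card_union_le _ _).trans
      (add_le_add (Finset.card_range B).le ?_))
    rw [← Finset.card_range (N / (M * l) + 1)]
    refine le_trans ?_ (le_of_eq (show (Finset.range M ×ˢ Finset.range (N / (M * l) + 1)).card =
      M * (Finset.range (N / (M * l) + 1)).card by rw [Finset.card_product, Finset.card_range M]))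
    refine Finset.card_le_card_of_injOn (t := Finset.range M ×ˢ Finset.range (N / (M * l) + 1))
      (fun n => (n % M, n / (M * l))) (fun n hn => ?_) fun a ha b hb h => ?_
    · obtain ⟨h1, -⟩ := Finset.mem_filter.1 hn
      have h2 : n < N := Finset.mem_range.1 (Finset.mem_filter.1 h1).1
      simp only [Finset.coe_product, Set.mem_prod, Finset.mem_coe, Finset.mem_range]
      exact ⟨Nat.mod_lt _ hM, Nat.lt_succ_of_le (Nat.div_le_div_right h2.le)⟩
    · simp only [Prod.mk.injEq] at h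
      obtain ⟨ha1, haB⟩ := Finset.mem_filter.1 ha
      obtain ⟨hb1, hbB⟩ := Finset.mem_filter.1 hb
      obtain ⟨haN, -, pa⟩ := Finset.mem_filter.1 ha1
      obtain ⟨hbN, -, pb⟩ := Finset.mem_filter.1 hb1
      have ea : ∀ n : ℕ, n % M + M * l * (n / (M * l)) + M * (n / M % l) = n := fun n => by
        have e1 := Nat.mod_add_div n M
        have e2 := Nat.mod_add_div (n / M) l
        rw [Nat.div_div_eq_div_mul] at e2
        calc n % M + M * l * (n / (M * l)) + M * (n / M % l)
            = n % M + M * (n / M % l + l * (n / (M * l))) := by ring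
          _ = n := by rw [e2, e1]
      set n₀ := a % M + M * l * (a / (M * l)) with hn₀
      have hb0 : n₀ = b % M + M * l * (b / (M * l)) := by rw [hn₀, h.1, h.2]
      have hblock : Z + 1 ≤ a / (M * l) :=
        (Nat.le_div_iff_mul_le hML).2 (by rw [mul_comm]; exact haB)
      have hlow : M * l * (Z + 1) ≤ n₀ :=
        (Nat.mul_le_mul le_rfl hblock).trans (Nat.le_add_left _ _)
      have hZlt : Z < n₀ := by
        have := Nat.le_mul_of_pos_left (Z + 1) hML
        omega
      have hMln : M * l ≤ n₀ := (Nat.le_mul_of_pos_right _ (Nat.succ_pos Z)).trans hlow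
      have haN' : n₀ ≤ N := by
        have := ea a
        have := Finset.mem_range.1 haN
        omega
      have hij : a / M % l = b / M % l := by
        refine hN₀ N n₀ hN hMln (by omega) haN' (fun i _ => hZ' _ (by omega)) _
          (Nat.mod_lt _ hl0) _ (Nat.mod_lt _ hl0) ?_ ?_
        · rw [hn₀, ea a]; exact pa
        · rw [hb0, ea b]; exact pb
      rw [← ea a, ← ea b, h.1, h.2, hij]
  have hcard' : ((bigBad f N N).card : ℝ) ≤
      (B : ℝ) + M * (((N / (M * l) : ℕ) : ℝ) + 1) := by exact_mod_cast hcard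
  have hdiv : ((N / (M * l) : ℕ) : ℝ) * ((M : ℝ) * l) ≤ N := by
    exact_mod_cast Nat.div_mul_le_self N (M * l)
  rw [div_le_iff₀ (by positivity)] at hC
  rw [div_lt_iff₀ hη] at hl
  have hCN' : (C : ℝ) ≤ N := by exact_mod_cast hCN
  have hl' : (0 : ℝ) < l := by exact_mod_cast hl0
  have hmain : (M : ℝ) * ((N / (M * l) : ℕ) : ℝ) ≤ η / 2 * N := by
    refine le_of_mul_le_mul_right ?_ hl'
    nlinarith [mul_le_mul_of_nonneg_left hl.le (Nat.cast_nonneg N : (0 : ℝ) ≤ N)]
  nlinarith [mul_le_mul_of_nonneg_left hCN' (by positivity : 0 ≤ η / 2)]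

/-- **Conditional, Granville**: under abc the squarefree values of a separable polynomial have
the expected density. -/
theorem density_of_abc (habc : FA.Abc.ABCBound) {f : ℤ[X]}
    (hsep : (f.map (Int.castRingHom ℚ)).Separable) :
    Tendsto (fun N : ℕ => ((sfValues f N).card : ℝ) / N) atTop (𝓝 (sfDensity f)) := by
  rcases Nat.eq_zero_or_pos f.natDegree with hd | hd
  · exact density_natDegree_le_two hsep (by omega)
  · exact density_of_bigBad hsep fun η hη => bigBad_small habc hsep hd hη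

/-- **Conditional**: under abc there are infinitely many squarefree values unless some `p²`
divides every value. -/
theorem infinite_sfValues_of_abc (habc : FA.Abc.ABCBound) {f : ℤ[X]}
    (hsep : (f.map (Int.castRingHom ℚ)).Separable)
    (hloc : ∀ p : ℕ, p.Prime → ∃ n : ℕ, ¬((p : ℤ) ^ 2) ∣ f.eval (n : ℤ)) :
    {n : ℕ | Squarefree (f.eval (n : ℤ))}.Infinite := by
  intro hfin
  have hδ := (sfDensity_pos_iff hsep).2 hloc
  obtain ⟨C, hC⟩ := exists_nat_gt ((hfin.toFinset.card : ℝ) / (sfDensity f / 2))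
  obtain ⟨N, hN1, hN2⟩ := (((density_of_abc habc hsep).eventually
    (lt_mem_nhds (show sfDensity f / 2 < sfDensity f by linarith))).and
    (eventually_ge_atTop (C + 1))).exists
  have hsub : ((sfValues f N).card : ℝ) ≤ hfin.toFinset.card := by
    exact_mod_cast Finset.card_le_card fun n hn =>
      hfin.mem_toFinset.2 (Finset.mem_filter.1 hn).2
  have hN' : (C : ℝ) < N := by exact_mod_cast hN2
  have hN0 : (0 : ℝ) < N := lt_of_le_of_lt (Nat.cast_nonneg C) hN'
  rw [lt_div_iff₀ hN0] at hN1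
  rw [div_lt_iff₀ (by positivity)] at hC
  nlinarith

end FA.SquarefreeValues

end
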